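import Fermat.Agent.AV.Sand86.Main
import Fermat.Agent.AV.PicDiv86.Cl
import Fermat.Agent.AV.Deg14.Glue
import Fermat.Agent.AV.Var81.Wrap

/-!
# SAND phase 2, part 5: the volume input from an effective divisor (VOLINST step)

On an abelian scheme `f : A ⟶ Spec K` (`K` algebraically closed) with group law `G`, let `D` be an
effective Cartier divisor whose support is the complement of a nonempty affine open, such that
`[N]^* cl D = (cl D)^(N²)` in `Pic A` for all powers `N` of `n` (output of CUBE for a symmetric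
`L' = L^δ`), and with `h⁰(D^m) = O(m^g)` (output of UPB). Then `Deg14.VolumeInput G g n` holds with
`a m = h⁰(A, D^m)`.
-/

set_option autoImplicit false
set_option linter.style.haveILetI false

universe u

open AlgebraicGeometry CategoryTheory CategoryTheory.Limits TopologicalSpace Opposite Module
open NeronModelInfra GoodReductionJacobian

namespace Fermat.Agent.AV.Sand86

open Fermat.Agent.AV.PicDiv86 Fermat.Agent.AV.Cnt14 Fermat.Agent.AV.Sand60 Fermat.Agent.AV.Pic38

section StructK

variable {K : Type u} [Field K] {A : Scheme.{u}} (f : A ⟶ Spec (CommRingCat.of K)) [IsIntegral A]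

instance nonempty_top : Nonempty (⊤ : A.Opens) := ⟨⟨genericPoint A, trivial⟩⟩

/-- The structure map `K → K(A)` of an integral `K`-scheme. -/
noncomputable def structK : K →+* A.functionField :=
  (A.germToFunctionField ⊤).hom.comp (Var81.sectionsMap f ⊤)

theorem structK_mem_regularOn (r : K) : structK f r ∈ regularOn A Set.univ := by
  have := germToFunctionField_mem_regularOn (X := A) (U := ⊤) (Var81.sectionsMap f ⊤ r)
  rwa [Opens.coe_top] at this

theorem structK_eq (V : A.Opens) [Nonempty V] (r : K) :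
    structK f r = A.germToFunctionField V (Var81.sectionsMap f V r) := by
  have := Var81.germToFunctionField_comp_sectionsMap f ⊤ V
  exact congrArg (fun φ => φ r) this

/-- A dominant endomorphism over `Spec K` fixes the constants. -/
theorem functionFieldMap_structK (φ : A ⟶ A) [IsDominant φ] (hφ : φ ≫ f = f) (r : K) :
    PicDiv86.functionFieldMap φ (structK f r) = structK f r := by
  unfold structK
  rw [RingHom.comp_apply]
  change PicDiv86.functionFieldMap φ (A.germToFunctionField ⊤ _) = _
  rw [functionFieldMap_germ]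
  have h1 : φ.app ⊤ (Var81.sectionsMap f ⊤ r) = Var81.sectionsMap f ⊤ r := by
    unfold Var81.sectionsMap
    simp only [RingHom.comp_apply]
    rw [← CommRingCat.comp_apply, Scheme.Hom.app_eq_appLE, Scheme.Hom.appLE_comp_appLE]
    simp only [hφ]
    rfl
  rw [h1]
  rfl

theorem algebraMap_mem_regularOn [Algebra K A.functionField]
    (halg : ∀ r : K, algebraMap K A.functionField r = structK f r) (r : K) :
    algebraMap K A.functionField r ∈ regularOn A Set.univ := by
  rw [halg]; exact structK_mem_regularOn f r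

end StructK

section Main

variable {K : Type u} [Field K] [IsAlgClosed K] {A : Scheme.{u}}
  {f : A ⟶ Spec (CommRingCat.of K)} (G : RelativeGroupLaw K f)

omit [IsAlgClosed K] in
/-- Lower bound in the real form needed by `VolumeInput` (any `g`, including `g = 0`). -/
theorem exists_real_lower_bound [IsIntegral A] [CompactSpace A] [Algebra K A.functionField]
    (hK : ∀ r : K, algebraMap K A.functionField r ∈ regularOn A Set.univ)
    {D : CaDiv A} (hD : D.IsEffective) (g : ℕ) (x : Fin g → A.functionField)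
    (hx : AlgebraicIndependent K x) (hxU : ∀ i, x i ∈ regularOn A D.supportᶜ)
    (hfin : ∀ m, Module.Finite K (CaDiv.H0Submodule K hK (D ^ m))) :
    ∃ C₁ : ℝ, 0 < C₁ ∧ ∃ m₀ : ℕ, ∀ m : ℕ, m₀ ≤ m →
      C₁ * (m : ℝ) ^ g ≤ (finrank K (CaDiv.H0Submodule K hK (D ^ m)) : ℕ) := by
  rcases Nat.eq_zero_or_pos g with hg | hg
  · subst hg
    refine ⟨1, one_pos, 0, fun m _ => ?_⟩
    haveI := hfin m
    have h1 : (1 : A.functionField) ∈ CaDiv.H0Submodule K hK (D ^ m) :=
      CaDiv.one_mem_H0 (hD.pow m)
    have hpos : 0 < finrank K (CaDiv.H0Submodule K hK (D ^ m)) := by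
      rw [Module.finrank_pos_iff_exists_ne_zero]
      exact ⟨⟨1, h1⟩, fun h => one_ne_zero (congrArg Subtype.val h)⟩
    simp only [pow_zero, mul_one]
    exact_mod_cast hpos
  · obtain ⟨c, hc, hcm⟩ := exists_lower_bound K hK hD hg x hx hxU
    have hcg : (0 : ℝ) < ((c * g : ℕ) : ℝ) ^ g := by
      have : 0 < c * g := Nat.mul_pos hc hg
      positivity
    refine ⟨1 / ((c * g : ℕ) : ℝ) ^ g, by positivity, 0, fun m _ => ?_⟩
    have h := hcm m (hfin m)
    have h' : ((m : ℝ)) ^ g ≤ ((c * g : ℕ) : ℝ) ^ g *
        (finrank K (CaDiv.H0Submodule K hK (D ^ m)) : ℕ) := by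
      exact_mod_cast h
    rw [one_div, inv_mul_le_iff₀ hcg]
    exact h'

/-- **VOLINST step**: the volume input from an effective divisor with affine complement,
growth `O(m^g)`, and the `N²`-formula in `Pic A`. -/
theorem volumeInput_of_divisor (hc : G.IsCommutative) (hA : AbelianSchemePropertyBundle K f)
    [IsIntegral A] (g n : ℕ) (hn : (n : K) ≠ 0)
    [Algebra K A.functionField] (halg : ∀ r : K, algebraMap K A.functionField r = structK f r)
    {D : CaDiv A} (hD : D.IsEffective) {U : A.Opens} (hU : IsAffineOpen U) [Nonempty U]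
    (hsupp : D.support = (U : Set A)ᶜ)
    (x : Fin g → A.functionField) (hx : AlgebraicIndependent K x)
    (hxU : ∀ i, x i ∈ regularOn A (U : Set A))
    (hfin : ∀ m, Module.Finite K
      (CaDiv.H0Submodule K (algebraMap_mem_regularOn f halg) (D ^ m)))
    (hupp : ∃ (C : ℝ) (m₀ : ℕ), ∀ m : ℕ, m₀ ≤ m →
      ((finrank K (CaDiv.H0Submodule K (algebraMap_mem_regularOn f halg) (D ^ m)) : ℕ) : ℝ) ≤
        C * (m : ℝ) ^ g)
    (hcube : ∀ j : ℕ, Pic.map (G.schemeNsmul (n ^ j)) (cl D) = cl D ^ ((n ^ j) ^ 2)) :
    Deg14.VolumeInput G g n := by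
  classical
  have hKr := algebraMap_mem_regularOn f halg
  haveI : Smooth f := hA.smooth
  haveI : IsProper f := hA.proper
  haveI : CompactSpace A := QuasiCompact.compactSpace_of_compactSpace f
  have hnorm : ∀ V : A.Opens, IsAffineOpen V → Nonempty V → IsIntegrallyClosed Γ(A, V) :=
    fun V hV hne => by
      haveI := hne
      exact Var81.isIntegrallyClosed_sections f hV
  have hsupp' : D.supportᶜ = (U : Set A) := by rw [hsupp, compl_compl]
  obtain ⟨C₁, hC₁, m₁, h₁⟩ := exists_real_lower_bound hKr hD g x hx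
    (fun i => by rw [hsupp']; exact hxU i) hfin
  obtain ⟨C₂, m₂, hC₂⟩ := hupp
  refine ⟨⟨fun m => finrank K (CaDiv.H0Submodule K hKr (D ^ m)), C₁, C₂, hC₁, ⟨m₁, h₁⟩,
    ⟨m₂, hC₂⟩, ?_⟩⟩
  rintro N ⟨j, rfl⟩
  haveI := Basics88.NsmulEtale.etale_schemeNsmul_of_bundle G hc hA (n ^ j)
    (Deg14.natCast_pow_ne_zero hn j)
  haveI := Cnt14.isDominant_schemeNsmul G hA (n ^ j)
  haveI := Cnt14.isFinite_schemeNsmul G hA (n ^ j)
  haveI := Cnt14.finite_functionField_schemeNsmul G hA (n ^ j)
  haveI := Cnt14.isSeparable_functionField_schemeNsmul G hA (n ^ j)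
  letI : Algebra K (FunctionFieldOver (G.schemeNsmul (n ^ j))) :=
    ((algebraMap A.functionField (FunctionFieldOver (G.schemeNsmul (n ^ j)))).comp
      (algebraMap K A.functionField)).toAlgebra
  haveI : IsScalarTower K A.functionField (FunctionFieldOver (G.schemeNsmul (n ^ j))) :=
    IsScalarTower.of_algebraMap_eq fun _ => rfl
  obtain ⟨c, hc'⟩ := exists_sandwich (G.schemeNsmul (n ^ j)) K hKr hnorm hD hU hsupp hfin
  -- linear equivalence `[N]^* D ~ N² D`
  obtain ⟨h, hh⟩ : ∃ h : A.functionFieldˣ,
      CaDiv.pullback (G.schemeNsmul (n ^ j)) D = CaDiv.div h * D ^ ((n ^ j) ^ 2) := by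
    rw [← cl_eq_cl_iff, ← map_cl, map_pow]
    exact hcube j
  have hcompat : ∀ r : K,
      toX (G.schemeNsmul (n ^ j))
        (algebraMap K (FunctionFieldOver (G.schemeNsmul (n ^ j))) r) =
      algebraMap K A.functionField r := by
    intro r
    change toX (G.schemeNsmul (n ^ j))
      (algebraMap A.functionField (FunctionFieldOver (G.schemeNsmul (n ^ j)))
        (algebraMap K A.functionField r)) = _
    rw [toX_algebraMap, halg, functionFieldMap_structK f _ (G.schemeNsmul_over _)]
  have hup : ∀ m, finrank K (H0Up (G.schemeNsmul (n ^ j)) K hKr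
      ((CaDiv.pullback (G.schemeNsmul (n ^ j)) D) ^ m)) =
      finrank K (CaDiv.H0Submodule K hKr (D ^ ((n ^ j) ^ 2 * m))) := by
    intro m
    rw [(H0UpEquiv (G.schemeNsmul (n ^ j)) K hKr hKr hcompat _).finrank_eq]
    have e : (CaDiv.pullback (G.schemeNsmul (n ^ j)) D) ^ m =
        CaDiv.div (h ^ m) * D ^ ((n ^ j) ^ 2 * m) := by
      rw [hh, mul_pow, ← map_pow, ← pow_mul]
    rw [e]
    exact (CaDiv.H0EquivOfDiv hKr _ (h ^ m)).finrank_eq
  have hdeg : finrank A.functionField (FunctionFieldOver (G.schemeNsmul (n ^ j))) =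
      Cnt14.deg G (n ^ j) := by
    rw [Cnt14.finrank_functionFieldOver]
    exact Cnt14.degree_schemeNsmul G hA (n ^ j)
  refine ⟨c, fun m hm => ⟨?_, ?_⟩⟩
  · have h2 := (hc' (m - c)).2.1
    rw [Nat.sub_add_cancel hm.le, hup, hdeg] at h2
    exact h2
  · have h2 := (hc' m).2.2
    rw [hup, hdeg] at h2
    exact h2

omit [IsAlgClosed K] in
/-- `g` algebraically independent rational functions, regular on a given nonempty affine open,
on an integral `K`-scheme which is smooth of relative dimension `g` (from `Var81`). -/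
theorem exists_algebraicIndependent_regularOn [IsIntegral A] (g : ℕ)
    [SmoothOfRelativeDimension g f] [Algebra K A.functionField]
    (halg : ∀ r : K, algebraMap K A.functionField r = structK f r)
    {U : A.Opens} (hU : IsAffineOpen U) [Nonempty U] :
    ∃ x : Fin g → A.functionField, AlgebraicIndependent K x ∧
      ∀ i, x i ∈ regularOn A (U : Set A) := by
  let algU : Algebra K Γ(A, U) := (Var81.sectionsMap f U).toAlgebra
  obtain ⟨x₀, hx₀⟩ := Var81.exists_algebraicIndependent_sections f g hU
  have tower : IsScalarTower K Γ(A, U) A.functionField := .of_algebraMap_eq fun r => by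
    change algebraMap K A.functionField r = A.germToFunctionField U (Var81.sectionsMap f U r)
    rw [halg, structK_eq f U]
  have hy : AlgebraicIndependent K
      (fun i => IsScalarTower.toAlgHom K Γ(A, U) A.functionField (x₀ i)) :=
    hx₀.map' (f := IsScalarTower.toAlgHom K Γ(A, U) A.functionField)
      (A.germToFunctionField_injective U)
  exact ⟨_, hy, fun i => germToFunctionField_mem_regularOn (x₀ i)⟩

/-- **VOLINST step**, with the algebraically independent functions supplied by `Var81`. -/
theorem volumeInput_of_divisor' (hc : G.IsCommutative) (hA : AbelianSchemePropertyBundle K f)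
    [IsIntegral A] (g n : ℕ) [SmoothOfRelativeDimension g f] (hn : (n : K) ≠ 0)
    [Algebra K A.functionField] (halg : ∀ r : K, algebraMap K A.functionField r = structK f r)
    {D : CaDiv A} (hD : D.IsEffective) {U : A.Opens} (hU : IsAffineOpen U) [Nonempty U]
    (hsupp : D.support = (U : Set A)ᶜ)
    (hfin : ∀ m, Module.Finite K
      (CaDiv.H0Submodule K (algebraMap_mem_regularOn f halg) (D ^ m)))
    (hupp : ∃ (C : ℝ) (m₀ : ℕ), ∀ m : ℕ, m₀ ≤ m →
      ((finrank K (CaDiv.H0Submodule K (algebraMap_mem_regularOn f halg) (D ^ m)) : ℕ) : ℝ) ≤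
        C * (m : ℝ) ^ g)
    (hcube : ∀ j : ℕ, Pic.map (G.schemeNsmul (n ^ j)) (cl D) = cl D ^ ((n ^ j) ^ 2)) :
    Deg14.VolumeInput G g n := by
  obtain ⟨x, hx, hxU⟩ := exists_algebraicIndependent_regularOn (f := f) g halg hU
  exact volumeInput_of_divisor G hc hA g n hn halg hD hU hsupp x hx hxU hfin hupp hcube

end Main

end Fermat.Agent.AV.Sand86
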