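import Fermat.Agent.AV.Sand86.Span
import Fermat.Agent.AV.Sand60.Abstract

/-!
# SAND phase 2, part 4: the geometric sandwich and the lower bound

* `sandFiltPair` : the `Sand60.FiltPair` of a finite dominant morphism `φ : X ⟶ Y` of integral
  schemes (`Y` normal, `K(X)/K(Y)` finite) and an effective Cartier divisor `D` on `Y` with
  affine complement: `R m = H⁰(Y, D^m)`, `R' m = H⁰(X, φ^* D^m)`.
* `exists_sandwich` : `d · h⁰(D^m) ≤ h⁰(φ^*D^(m+c))` and `h⁰(φ^*D^m) ≤ d · h⁰(D^(m+c))`,
  `d = [K(X) : K(Y)]` (separable case).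
* `exists_lower_bound` : `g` algebraically independent functions regular on `Y \ Supp D` give
  `m^g ≤ (c g)^g · h⁰(D^m)`.
-/

set_option autoImplicit false
set_option linter.style.haveILetI false

universe u

open AlgebraicGeometry CategoryTheory TopologicalSpace Opposite Module

namespace Fermat.Agent.AV.Sand86

open Fermat.Agent.AV.PicDiv86 Fermat.Agent.AV.Cnt14 Fermat.Agent.AV.Sand60

section Sandwich

variable {X Y : Scheme.{u}} [IsIntegral X] [IsIntegral Y] (φ : X ⟶ Y) [IsDominant φ]
variable (K : Type*) [Field K] [Algebra K Y.functionField] [Algebra K (FunctionFieldOver φ)]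
  [IsScalarTower K Y.functionField (FunctionFieldOver φ)]

/-- The pair of filtrations `H⁰(Y, D^m) ⊆ K(Y)`, `H⁰(X, φ^* D^m) ⊆ K(X)`. -/
noncomputable def sandFiltPair [IsFinite φ] [CompactSpace X]
    [FiniteDimensional Y.functionField (FunctionFieldOver φ)]
    (hK : ∀ r : K, algebraMap K Y.functionField r ∈ regularOn Y Set.univ)
    (hnorm : ∀ V : Y.Opens, IsAffineOpen V → Nonempty V → IsIntegrallyClosed Γ(Y, V))
    {D : CaDiv Y} (hD : D.IsEffective) {U : Y.Opens} (hU : IsAffineOpen U) [Nonempty U]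
    (hsupp : D.support = (U : Set Y)ᶜ) :
    FiltPair K Y.functionField (FunctionFieldOver φ) where
  R m := CaDiv.H0Submodule K hK (D ^ m)
  R' m := H0Up φ K hK ((CaDiv.pullback φ D) ^ m)
  mono := fun _ _ h _ hx => CaDiv.H0_pow_mono hD h hx
  mono' := fun _ _ h _ hx => CaDiv.H0_pow_mono hD.pullback h hx
  one_mem := by
    change (1 : Y.functionField) ∈ (D ^ 0).H0
    rw [pow_zero]
    exact CaDiv.one_mem_H0 CaDiv.isEffective_one
  mul_mem := fun {a b x y} hx hy => by
    change x * y ∈ (D ^ (a + b)).H0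
    rw [pow_add]
    exact CaDiv.mul_mem_H0 hx hy
  mul_mem' := fun {a b x y} hx hy => by
    change toX φ (x * y) ∈ ((CaDiv.pullback φ D) ^ (a + b)).H0
    rw [pow_add, toX_mul]
    exact CaDiv.mul_mem_H0 hx hy
  map_mem := fun {m x} hx => by
    change toX φ (algebraMap Y.functionField (FunctionFieldOver φ) x) ∈
      ((CaDiv.pullback φ D) ^ m).H0
    rw [toX_algebraMap, ← map_pow]
    exact CaDiv.map_mem_H0 φ hx
  trace_mem := fun {m y} hy => by
    refine trace_mem_H0 φ hnorm (D ^ m) y ?_
    rw [map_pow]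
    exact hy
  span_top := span_iUnion_H0Up_eq_top φ K hK hD hU hsupp

/-- **The geometric sandwich.** Only the finiteness of the `H⁰(Y, D^m)` is needed; that of the
`H⁰(X, φ^* D^m)` follows. -/
theorem exists_sandwich [IsFinite φ] [CompactSpace X]
    [FiniteDimensional Y.functionField (FunctionFieldOver φ)]
    [Algebra.IsSeparable Y.functionField (FunctionFieldOver φ)]
    (hK : ∀ r : K, algebraMap K Y.functionField r ∈ regularOn Y Set.univ)
    (hnorm : ∀ V : Y.Opens, IsAffineOpen V → Nonempty V → IsIntegrallyClosed Γ(Y, V))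
    {D : CaDiv Y} (hD : D.IsEffective) {U : Y.Opens} (hU : IsAffineOpen U) [Nonempty U]
    (hsupp : D.support = (U : Set Y)ᶜ)
    (hfin : ∀ m, Module.Finite K (CaDiv.H0Submodule K hK (D ^ m))) :
    ∃ c : ℕ, ∀ m : ℕ,
      Module.Finite K (H0Up φ K hK ((CaDiv.pullback φ D) ^ m)) ∧
      finrank Y.functionField (FunctionFieldOver φ) *
          finrank K (CaDiv.H0Submodule K hK (D ^ m)) ≤
        finrank K (H0Up φ K hK ((CaDiv.pullback φ D) ^ (m + c))) ∧
      finrank K (H0Up φ K hK ((CaDiv.pullback φ D) ^ m)) ≤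
        finrank Y.functionField (FunctionFieldOver φ) *
          finrank K (CaDiv.H0Submodule K hK (D ^ (m + c))) := by
  let P := sandFiltPair φ K hK hnorm hD hU hsupp
  obtain ⟨c, hc⟩ := P.exists_sandwich
  have hfin' : ∀ m, Module.Finite K (P.R' m) := by
    intro m
    obtain ⟨-, ⟨f, hf⟩⟩ := hc m
    haveI : Module.Finite K (P.R (m + c)) := hfin (m + c)
    exact Module.Finite.of_injective f hf
  refine ⟨c, fun m => ⟨hfin' m, ?_⟩⟩
  obtain ⟨⟨f, hf⟩, ⟨g, hg⟩⟩ := hc m
  haveI : Module.Finite K (P.R m) := hfin m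
  haveI : Module.Finite K (P.R (m + c)) := hfin (m + c)
  haveI := hfin' m
  haveI := hfin' (m + c)
  constructor
  · have h := LinearMap.finrank_le_finrank_of_injective hf
    rwa [Module.finrank_pi_fintype, Finset.sum_const, Finset.card_univ, Fintype.card_fin,
      smul_eq_mul] at h
  · have h := LinearMap.finrank_le_finrank_of_injective hg
    rwa [Module.finrank_pi_fintype, Finset.sum_const, Finset.card_univ, Fintype.card_fin,
      smul_eq_mul] at h

/-- Comparison of `H0Up` with `H0Submodule` on `X`, for a compatible `K`-structure on `K(X)`. -/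
noncomputable def H0UpEquiv [Algebra K X.functionField]
    (hK : ∀ r : K, algebraMap K Y.functionField r ∈ regularOn Y Set.univ)
    (hKX : ∀ r : K, algebraMap K X.functionField r ∈ regularOn X Set.univ)
    (hcompat : ∀ r : K, toX φ (algebraMap K (FunctionFieldOver φ) r) =
      algebraMap K X.functionField r) (E : CaDiv X) :
    H0Up φ K hK E ≃ₗ[K] CaDiv.H0Submodule K hKX E where
  toFun y := ⟨toX φ y.1, y.2⟩
  invFun y := ⟨ofX φ y.1, y.2⟩
  left_inv _ := rfl
  right_inv _ := rfl
  map_add' _ _ := rfl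
  map_smul' r y := by
    apply Subtype.ext
    change toX φ (r • y.1) = r • toX φ y.1
    rw [Algebra.smul_def, Algebra.smul_def, toX_mul, hcompat]

end Sandwich

section LowerBound

variable {Y : Scheme.{u}} [IsIntegral Y]
variable (K : Type*) [Field K] [Algebra K Y.functionField]

/-- The trivial pair of filtrations (`F' = F`), used to apply the abstract lower bound. -/
noncomputable def selfFiltPair
    (hK : ∀ r : K, algebraMap K Y.functionField r ∈ regularOn Y Set.univ)
    {D : CaDiv Y} (hD : D.IsEffective) : FiltPair K Y.functionField Y.functionField where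
  R m := CaDiv.H0Submodule K hK (D ^ m)
  R' m := CaDiv.H0Submodule K hK (D ^ m)
  mono := fun _ _ h _ hx => CaDiv.H0_pow_mono hD h hx
  mono' := fun _ _ h _ hx => CaDiv.H0_pow_mono hD h hx
  one_mem := by
    change (1 : Y.functionField) ∈ (D ^ 0).H0
    rw [pow_zero]
    exact CaDiv.one_mem_H0 CaDiv.isEffective_one
  mul_mem := fun {a b x y} hx hy => by
    change x * y ∈ (D ^ (a + b)).H0
    rw [pow_add]
    exact CaDiv.mul_mem_H0 hx hy
  mul_mem' := fun {a b x y} hx hy => by
    change x * y ∈ (D ^ (a + b)).H0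
    rw [pow_add]
    exact CaDiv.mul_mem_H0 hx hy
  map_mem := fun hx => hx
  trace_mem := fun {m y} hy => by
    rw [Algebra.trace_self_apply]
    exact hy
  span_top := by
    rw [eq_top_iff]
    intro y _
    have h1 : (1 : Y.functionField) ∈
        (⋃ m, (CaDiv.H0Submodule K hK (D ^ m) : Set Y.functionField)) := by
      refine Set.mem_iUnion.2 ⟨0, ?_⟩
      change (1 : Y.functionField) ∈ (D ^ 0).H0
      rw [pow_zero]
      exact CaDiv.one_mem_H0 CaDiv.isEffective_one
    have h2 := Submodule.smul_mem _ y (Submodule.subset_span h1)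
    rwa [smul_eq_mul, mul_one] at h2

/-- **Lower bound**: `g` algebraically independent rational functions, regular on the complement
of the support of the effective divisor `D`, force `h⁰(D^m) ≥ (m / (c g))^g`. -/
theorem exists_lower_bound [CompactSpace Y]
    (hK : ∀ r : K, algebraMap K Y.functionField r ∈ regularOn Y Set.univ)
    {D : CaDiv Y} (hD : D.IsEffective) {g : ℕ} (hg : 0 < g) (x : Fin g → Y.functionField)
    (hx : AlgebraicIndependent K x) (hxU : ∀ i, x i ∈ regularOn Y D.supportᶜ) :
    ∃ c : ℕ, 0 < c ∧ ∀ m : ℕ, Module.Finite K (CaDiv.H0Submodule K hK (D ^ m)) →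
      m ^ g ≤ (c * g) ^ g * finrank K (CaDiv.H0Submodule K hK (D ^ m)) := by
  obtain ⟨n, hn⟩ := CaDiv.exists_forall_mem_H0_pow_of_finite hD x hxU
  refine ⟨n + 1, Nat.succ_pos n, fun m hm => ?_⟩
  let P := selfFiltPair K hK hD
  haveI : Module.Finite K (P.R m) := hm
  exact P.pow_le_mul_finrank hg (Nat.succ_pos n) x hx (fun i => hn (n + 1) (Nat.le_succ n) i) m

end LowerBound

end Fermat.Agent.AV.Sand86
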