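import Fermat.Agent.AV.PicDiv86.Extension
import Fermat.Agent.AV.PicDiv86.Pullback
import Fermat.Agent.AV.Cnt14.FunctionField

/-!
# SAND phase 2 (CELL AV), part 1: set-up

`φ : X ⟶ Y` a dominant morphism of integral schemes, `F = K(Y)`, `F' = Cnt14.FunctionFieldOver φ`
(`= K(X)` as an `F`-algebra). We compare helper43's `NormD43.functionFieldMap` with
`PicDiv86.functionFieldMap`, and define the filtration `R' m = H⁰(X, φ^* D^m) ⊆ F'`.
-/

set_option autoImplicit false

universe u

open AlgebraicGeometry CategoryTheory TopologicalSpace Opposite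

namespace Fermat.Agent.AV.Sand86

open Fermat.Agent.AV.PicDiv86 Fermat.Agent.AV.Cnt14

variable {X Y : Scheme.{u}} [IsIntegral X] [IsIntegral Y] (φ : X ⟶ Y) [IsDominant φ]

/-- The two definitions of the map of function fields agree. -/
theorem functionFieldMap_eq :
    PicDiv86.functionFieldMap φ = (NormD43.functionFieldMap φ).hom := by
  apply functionFieldMap_ext
  intro U hU s
  exact NormD43.functionFieldMap_germ φ U ⟨_, (hU.some).2⟩ s

/-- An element of `F' = FunctionFieldOver φ` as a rational function on `X`. -/
def toX (y : FunctionFieldOver φ) : X.functionField := y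

/-- A rational function on `X` as an element of `F' = FunctionFieldOver φ`. -/
def ofX (y : X.functionField) : FunctionFieldOver φ := y

@[simp] theorem toX_ofX (y : X.functionField) : toX φ (ofX φ y) = y := rfl
@[simp] theorem ofX_toX (y : FunctionFieldOver φ) : ofX φ (toX φ y) = y := rfl
@[simp] theorem toX_mul (a b : FunctionFieldOver φ) : toX φ (a * b) = toX φ a * toX φ b := rfl
@[simp] theorem toX_add (a b : FunctionFieldOver φ) : toX φ (a + b) = toX φ a + toX φ b := rfl
@[simp] theorem toX_zero : toX φ 0 = 0 := rfl
@[simp] theorem toX_one : toX φ 1 = 1 := rfl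
@[simp] theorem toX_neg (a : FunctionFieldOver φ) : toX φ (-a) = -toX φ a := rfl
@[simp] theorem ofX_mul (a b : X.functionField) : ofX φ (a * b) = ofX φ a * ofX φ b := rfl
@[simp] theorem ofX_one : ofX φ 1 = 1 := rfl

theorem toX_algebraMap (x : Y.functionField) :
    toX φ (algebraMap Y.functionField (FunctionFieldOver φ) x) = PicDiv86.functionFieldMap φ x := by
  rw [functionFieldMap_eq]; rfl

theorem algebraMap_eq_ofX (x : Y.functionField) :
    algebraMap Y.functionField (FunctionFieldOver φ) x = ofX φ (PicDiv86.functionFieldMap φ x) := by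
  rw [functionFieldMap_eq]; rfl

section Filtration

variable (K : Type*) [Field K] [Algebra K Y.functionField] [Algebra K (FunctionFieldOver φ)]
  [IsScalarTower K Y.functionField (FunctionFieldOver φ)]

theorem toX_algebraMap_mem_regularOn
    (hK : ∀ r : K, algebraMap K Y.functionField r ∈ regularOn Y Set.univ) (r : K) :
    toX φ (algebraMap K (FunctionFieldOver φ) r) ∈ regularOn X Set.univ := by
  rw [IsScalarTower.algebraMap_apply K Y.functionField (FunctionFieldOver φ), toX_algebraMap]
  have := functionFieldMap_mem_regularOn φ (hK r)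
  simpa using this

/-- The `K`-subspace `H⁰(X, E) ⊆ F'` for a Cartier divisor `E` on `X`. -/
noncomputable def H0Up (hK : ∀ r : K, algebraMap K Y.functionField r ∈ regularOn Y Set.univ)
    (E : CaDiv X) : Submodule K (FunctionFieldOver φ) where
  carrier := {y | toX φ y ∈ E.H0}
  zero_mem' := E.H0.zero_mem
  add_mem' := fun ha hb => E.H0.add_mem ha hb
  smul_mem' := fun r y hy => by
    change toX φ (r • y) ∈ E.H0
    rw [Algebra.smul_def, toX_mul]
    exact CaDiv.regular_mul_mem_H0 (toX_algebraMap_mem_regularOn φ K hK r) hy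

theorem mem_H0Up {hK : ∀ r : K, algebraMap K Y.functionField r ∈ regularOn Y Set.univ}
    {E : CaDiv X} {y : FunctionFieldOver φ} : y ∈ H0Up φ K hK E ↔ toX φ y ∈ E.H0 := Iff.rfl

end Filtration

end Fermat.Agent.AV.Sand86
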