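import Fermat.Agent.AV.Sand86.Trace

/-!
# SAND phase 2, part 3: sections of the powers of `φ^* D` span `K(X)` over `K(Y)`

`φ : X ⟶ Y` finite dominant, `X` quasi-compact, `D` an effective Cartier divisor on `Y` whose
support is the complement of a nonempty affine open `U`. Then every rational function on `X` is
of the form `g / φ^♯ r` with `g ∈ H⁰(X, φ^* D^n)` for some `n` and `r ∈ Γ(Y, U)` nonzero.
-/

set_option autoImplicit false
set_option linter.style.haveILetI false

universe u

open AlgebraicGeometry CategoryTheory TopologicalSpace Opposite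

namespace Fermat.Agent.AV.Sand86

open Fermat.Agent.AV.PicDiv86 Fermat.Agent.AV.Cnt14

variable {X Y : Scheme.{u}} [IsIntegral X] [IsIntegral Y] (φ : X ⟶ Y) [IsDominant φ]

/-- Every rational function on `X` is `g / φ^♯ r` with `g` regular on `φ⁻¹ U` and `r ∈ Γ(Y, U)`
nonzero (`U` affine, `φ` finite). -/
theorem exists_eq_div_of_isFinite [IsFinite φ] {U : Y.Opens} (hU : IsAffineOpen U) [Nonempty U]
    (y : X.functionField) :
    ∃ (g : Γ(X, φ ⁻¹ᵁ U)) (r : Γ(Y, U)), r ≠ 0 ∧
      y * PicDiv86.functionFieldMap φ (Y.germToFunctionField U r) =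
        X.germToFunctionField (φ ⁻¹ᵁ U) g := by
  have hW : IsAffineOpen (φ ⁻¹ᵁ U) := hU.preimage φ
  haveI := functionField_isFractionRing_of_isAffineOpen X (φ ⁻¹ᵁ U) hW
  obtain ⟨a, b, hb, hab⟩ := IsFractionRing.div_surjective (A := Γ(X, φ ⁻¹ᵁ U)) y
  letI : Algebra Γ(Y, U) Γ(X, φ ⁻¹ᵁ U) := (φ.app U).hom.toAlgebra
  have hint : IsIntegral Γ(Y, U) b := NormD43.isIntegral_app_of_universallyClosed φ U hU b
  obtain ⟨r, hr, c, hc⟩ := hint.isAlgebraic.exists_nonzero_dvd hb
  refine ⟨a * c, r, hr, ?_⟩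
  have hb' : X.germToFunctionField (φ ⁻¹ᵁ U) b ≠ 0 := by
    intro h0
    exact nonZeroDivisors.ne_zero hb
      (Scheme.germToFunctionField_injective X _ (h0.trans (map_zero _).symm))
  have h1 : PicDiv86.functionFieldMap φ (Y.germToFunctionField U r) =
      X.germToFunctionField (φ ⁻¹ᵁ U) b * X.germToFunctionField (φ ⁻¹ᵁ U) c := by
    rw [functionFieldMap_germ, ← map_mul]
    exact congrArg _ hc
  have h2 : y = X.germToFunctionField (φ ⁻¹ᵁ U) a / X.germToFunctionField (φ ⁻¹ᵁ U) b :=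
    hab.symm
  rw [h1, h2, map_mul]
  field_simp

/-- **Spanning**: the sections of the powers of `φ^* D` span `F'` over `F`. -/
theorem span_iUnion_H0Up_eq_top [IsFinite φ] [CompactSpace X]
    (K : Type*) [Field K] [Algebra K Y.functionField] [Algebra K (FunctionFieldOver φ)]
    [IsScalarTower K Y.functionField (FunctionFieldOver φ)]
    (hK : ∀ r : K, algebraMap K Y.functionField r ∈ regularOn Y Set.univ)
    {D : CaDiv Y} (hD : D.IsEffective) {U : Y.Opens} (hU : IsAffineOpen U) [Nonempty U]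
    (hsupp : D.support = (U : Set Y)ᶜ) :
    Submodule.span Y.functionField
      (⋃ m, (H0Up φ K hK ((CaDiv.pullback φ D) ^ m) : Set (FunctionFieldOver φ))) = ⊤ := by
  rw [eq_top_iff]
  intro y _
  obtain ⟨g, r, hr, hgr⟩ := exists_eq_div_of_isFinite φ hU (toX φ y)
  -- `g` is a section of some power of `φ^* D`
  have hsupp' : ((CaDiv.pullback φ D).support)ᶜ = ((φ ⁻¹ᵁ U : X.Opens) : Set X) := by
    rw [CaDiv.support_pullback φ hD, hsupp]
    ext x
    simp
  have hg : X.germToFunctionField (φ ⁻¹ᵁ U) g ∈ regularOn X ((CaDiv.pullback φ D).support)ᶜ := by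
    rw [hsupp']
    exact germToFunctionField_mem_regularOn g
  obtain ⟨n, hn⟩ := CaDiv.exists_forall_mem_H0_pow hD.pullback _ hg
  have hmem : ofX φ (X.germToFunctionField (φ ⁻¹ᵁ U) g) ∈
      (⋃ m, (H0Up φ K hK ((CaDiv.pullback φ D) ^ m) : Set (FunctionFieldOver φ))) :=
    Set.mem_iUnion.2 ⟨n, hn n le_rfl⟩
  have hr' : Y.germToFunctionField U r ≠ 0 := by
    intro h0
    exact hr (Scheme.germToFunctionField_injective Y U (h0.trans (map_zero _).symm))
  have hy : y = (Y.germToFunctionField U r)⁻¹ • ofX φ (X.germToFunctionField (φ ⁻¹ᵁ U) g) := by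
    rw [Algebra.smul_def, ← hgr, algebraMap_eq_ofX, ← ofX_mul, map_inv₀]
    have h0 : PicDiv86.functionFieldMap φ (Y.germToFunctionField U r) ≠ 0 := by
      rw [Ne, map_eq_zero_iff _ (functionFieldMap_injective φ)]
      exact hr'
    rw [mul_comm (toX φ y), ← mul_assoc, inv_mul_cancel₀ h0, one_mul, ofX_toX]
  rw [hy]
  exact Submodule.smul_mem _ _ (Submodule.subset_span hmem)

end Fermat.Agent.AV.Sand86
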