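import Fermat.Agent.AV.Sand86.Setup

/-!
# SAND phase 2, part 2: the trace maps `H⁰(X, φ^* D)` into `H⁰(Y, D)`

`φ : X ⟶ Y` finite dominant, `Y` normal (rings of sections over affine opens integrally closed),
`K(X)/K(Y)` finite. Then `Tr_{K(X)/K(Y)}` maps `H⁰(X, φ^* D)` into `H⁰(Y, D)` for every Cartier
divisor `D` on `Y`.
-/

set_option autoImplicit false
set_option linter.style.haveILetI false

universe u

open AlgebraicGeometry CategoryTheory TopologicalSpace Opposite

namespace Fermat.Agent.AV.Sand86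

open Fermat.Agent.AV.PicDiv86 Fermat.Agent.AV.Cnt14

variable {X Y : Scheme.{u}} [IsIntegral X] [IsIntegral Y] (φ : X ⟶ Y) [IsDominant φ]

/-- The germ map `Γ(X, W) → F'`. -/
noncomputable def germUp (W : X.Opens) [Nonempty W] : Γ(X, W) →+* FunctionFieldOver φ :=
  (X.germToFunctionField W).hom

theorem toX_germUp (W : X.Opens) [Nonempty W] (s : Γ(X, W)) :
    toX φ (germUp φ W s) = X.germToFunctionField W s := rfl

theorem germUp_app (V : Y.Opens) [Nonempty V] (b : Γ(Y, V)) :
    germUp φ (φ ⁻¹ᵁ V) (φ.app V b) =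
      algebraMap Y.functionField (FunctionFieldOver φ) (Y.germToFunctionField V b) := by
  rw [algebraMap_eq_ofX, functionFieldMap_germ]
  rfl

/-- A rational function on `X` which is regular on `φ⁻¹ V` (`V` affine) is integral over
`Γ(Y, V)`, for a universally closed `φ`. -/
theorem isIntegralElem_of_mem_regularOn [UniversallyClosed φ] {V : Y.Opens} (hV : IsAffineOpen V)
    [Nonempty V] (z : FunctionFieldOver φ)
    (hz : toX φ z ∈ regularOn X ((φ ⁻¹ᵁ V : X.Opens) : Set X)) :
    ((algebraMap Y.functionField (FunctionFieldOver φ)).comp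
      (Y.germToFunctionField V).hom).IsIntegralElem z := by
  obtain ⟨s, hs⟩ := mem_regularOn_iff.1 hz
  obtain ⟨p, hpm, hp⟩ := NormD43.isIntegral_app_of_universallyClosed φ V hV s
  refine ⟨p, hpm, ?_⟩
  have h1 : (algebraMap Y.functionField (FunctionFieldOver φ)).comp (Y.germToFunctionField V).hom =
      (germUp φ (φ ⁻¹ᵁ V)).comp (φ.app V).hom := by
    ext b
    exact (germUp_app φ V b).symm
  have h2 : z = germUp φ (φ ⁻¹ᵁ V) s := hs.symm
  rw [h1, h2, ← Polynomial.hom_eval₂, hp, map_zero]

/-- **Trace lemma**: the trace of a section of `φ^* D` is a section of `D`. -/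
theorem trace_mem_H0 [IsFinite φ] [FiniteDimensional Y.functionField (FunctionFieldOver φ)]
    (hnorm : ∀ V : Y.Opens, IsAffineOpen V → Nonempty V → IsIntegrallyClosed Γ(Y, V))
    (D : CaDiv Y) (y : FunctionFieldOver φ) (hy : toX φ y ∈ (CaDiv.pullback φ D).H0) :
    Algebra.trace Y.functionField (FunctionFieldOver φ) y ∈ D.H0 := by
  rw [CaDiv.mem_H0]
  intro x
  obtain ⟨V, hV, hxV, f, hf⟩ := D.exists_affine_isLocalEq x
  have hne : Nonempty V := ⟨⟨x, hxV⟩⟩
  rw [CaDiv.mem_stalkLattice_iff_of_isLocalEq (hf x hxV)]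
  suffices h : Algebra.trace Y.functionField (FunctionFieldOver φ) y * (f : Y.functionField) ∈
      regularOn Y (V : Set Y) from mem_regularOn.1 h x hxV
  -- the twisted element
  set z : FunctionFieldOver φ := (f : Y.functionField) • y with hz
  have hz_tr : Algebra.trace Y.functionField (FunctionFieldOver φ) z =
      Algebra.trace Y.functionField (FunctionFieldOver φ) y * (f : Y.functionField) := by
    rw [hz, map_smul, smul_eq_mul, mul_comm]
  have hz_reg : toX φ z ∈ regularOn X ((φ ⁻¹ᵁ V : X.Opens) : Set X) := by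
    rw [mem_regularOn]
    intro x' hx'
    have hx'' : φ x' ∈ V := hx'
    have h1 := CaDiv.mem_H0.1 hy x'
    rw [CaDiv.mem_stalkLattice_iff_of_isLocalEq (hf (φ x') hx'').pullback, coe_unitsMap] at h1
    rw [hz, Algebra.smul_def, toX_mul, toX_algebraMap, mul_comm]
    exact h1
  -- integrality over `Γ(Y, V)`
  have hint := isIntegralElem_of_mem_regularOn φ hV z hz_reg
  letI : Algebra Γ(Y, V) (FunctionFieldOver φ) :=
    ((algebraMap Y.functionField (FunctionFieldOver φ)).comp
      (Y.germToFunctionField V).hom).toAlgebra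
  haveI : IsScalarTower Γ(Y, V) Y.functionField (FunctionFieldOver φ) :=
    IsScalarTower.of_algebraMap_eq fun _ => rfl
  have hint' : IsIntegral Γ(Y, V) z := hint
  have htr : IsIntegral Γ(Y, V) (Algebra.trace Y.functionField (FunctionFieldOver φ) z) :=
    Algebra.isIntegral_trace hint'
  haveI := functionField_isFractionRing_of_isAffineOpen Y V hV
  haveI := hnorm V hV hne
  obtain ⟨b, hb⟩ := IsIntegrallyClosed.isIntegral_iff.1 htr
  rw [← hz_tr, ← hb]
  exact germToFunctionField_mem_regularOn b

end Fermat.Agent.AV.Sand86
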